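import Fermat.Agent.HeckeRed.FrobPow
import Fermat.Agent.Igusa.GaussField

/-!
# `y(X ^ q) = y ^ q` modulo `q` over an unramified valuation ring with residue field `F_q`
-/

set_option autoImplicit false
set_option linter.unusedSectionVars false
set_option maxHeartbeats 1000000

noncomputable section

open HahnSeries ModularCurve

namespace Fermat.Agent.MazK2

open Fermat.Agent.Igusa Fermat.Agent.ModPoly Fermat.Agent.HeckeRed

variable {K : Type*} [Field K] {B : ValuationSubring K} {κ : Type*} [Field κ] {ρ : B →+* κ}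
  {q : ℕ} [hq : Fact q.Prime] [CharP κ q]

theorem natCast_mul_coeff' {R : Type*} [CommRing R] (q : ℕ) (F : LaurentSeries R) (n : ℤ) :
    ((q : LaurentSeries R) * F).coeff n = (q : R) * F.coeff n := by
  rw [← nsmul_eq_mul, ← nsmul_eq_mul]
  exact map_nsmul (⟨⟨fun G : LaurentSeries R => G.coeff n, rfl⟩, fun _ _ => rfl⟩ :
    LaurentSeries R →+ R) q F

omit [CharP κ q] hq in
/-- series with vanishing reduction are divisible by `q` -/
theorem exists_eq_q_mul (h2 : ∀ a : B, ρ a = 0 → ∃ b : B, a = (q : B) * b)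
    (R : LaurentSeries B) (hR : coeffMap ρ R = 0) :
    ∃ R' : LaurentSeries B, R = (q : LaurentSeries B) * R' := by
  classical
  have h3 : ∀ n, ρ (R.coeff n) = 0 := by
    intro n
    have := congrArg (fun z : LaurentSeries κ => z.coeff n) hR
    simpa [coeffMap_coeff] using this
  choose b hb using fun n => h2 _ (h3 n)
  refine ⟨⟨fun n => if R.coeff n = 0 then 0 else b n, ?_⟩, ?_⟩
  · refine R.isPWO_support.mono ?_
    intro n hn
    simp only [Function.mem_support, ne_eq, ite_eq_left_iff, not_forall] at hn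
    rw [HahnSeries.mem_support]
    exact hn.1
  · ext n
    rw [natCast_mul_coeff']
    show _ = (((q : B) * (if R.coeff n = 0 then 0 else b n) : B) : K)
    split_ifs with h
    · rw [h, mul_zero]
    · rw [← hb]

/-- **`y(X ^ q) = y ^ q` modulo `q`.** -/
theorem exists_frob (h1 : ∀ a : B, ρ a ^ q = ρ a)
    (h2 : ∀ a : B, ρ a = 0 → ∃ b : B, a = (q : B) * b) {y : LaurentSeries K}
    (hy : y ∈ gaussRing B ρ) :
    ∃ u ∈ gaussRing B ρ, qExpand K q y = y ^ q + (q : LaurentSeries K) * u := by
  obtain ⟨P, Q, hQ, hPQ⟩ := mem_gaussRing_iff.1 hy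
  have hfix : ∀ F : LaurentSeries B, coeffMap ρ F ^ q = qExpand κ q (coeffMap ρ F) := by
    intro F
    rw [pow_char_laurent]
    congr 1
    ext n
    rw [coeffMap_coeff, coeffMap_coeff, frobenius_def, h1]
  set R : LaurentSeries B := qExpand B q P * Q ^ q - P ^ q * qExpand B q Q with hR
  have hR0 : coeffMap ρ R = 0 := by
    rw [hR, map_sub, map_mul, map_mul, map_pow, map_pow, hfix, hfix,
      ModularCurve.coeffMap_qExpand, ModularCurve.coeffMap_qExpand, sub_self]
  obtain ⟨R', hR'⟩ := exists_eq_q_mul h2 R hR0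
  set D : LaurentSeries B := qExpand B q Q * Q ^ q with hD
  have hDρ : coeffMap ρ D ≠ 0 := by
    rw [hD, map_mul, map_pow, ModularCurve.coeffMap_qExpand]
    refine mul_ne_zero ?_ (pow_ne_zero _ hQ)
    intro h
    exact hQ (qExpand_injective' q (h.trans (map_zero _).symm))
  have hDL : coeffMap B.subtype D ≠ 0 := by
    intro h
    apply hDρ
    have h1 : D = 0 := coeffMap_injective (f := B.subtype) Subtype.val_injective
      (h.trans (map_zero _).symm)
    rw [h1, map_zero]
  refine ⟨coeffMap B.subtype R' / coeffMap B.subtype D,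
    mem_gaussRing_iff.2 ⟨_, _, hDρ, div_mul_cancel₀ _ hDL⟩, ?_⟩
  have hqc : coeffMap B.subtype ((q : LaurentSeries B)) = (q : LaurentSeries K) := map_natCast _ _
  have key : (qExpand K q y - y ^ q) * coeffMap B.subtype D =
      (q : LaurentSeries K) * coeffMap B.subtype R' := by
    rw [← hqc, ← map_mul, ← hR', hR, hD, map_sub, map_mul, map_mul, map_mul, map_pow, map_pow,
      ModularCurve.coeffMap_qExpand, ModularCurve.coeffMap_qExpand, ← hPQ, map_mul, mul_pow]
    ring
  have h5 : qExpand K q y - y ^ q = (q : LaurentSeries K) *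
      (coeffMap B.subtype R' / coeffMap B.subtype D) := by
    rw [mul_div_assoc', eq_div_iff hDL, key]
  rw [← h5]
  ring

/-- powers of sums -/
theorem exists_sum_pow {R : Type*} [CommRing R] (hq : q.Prime) {ι : Type*} (s : Finset ι)
    (f : ι → R) : ∃ r : R, (∑ i ∈ s, f i) ^ q = ∑ i ∈ s, f i ^ q + (q : R) * r := by
  classical
  induction s using Finset.induction_on with
  | empty => exact ⟨0, by simp [hq.ne_zero]⟩
  | insert j s hj ih =>
    obtain ⟨r, hr⟩ := ih
    obtain ⟨t, ht⟩ := exists_add_pow_prime_eq hq (f j) (∑ i ∈ s, f i)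
    refine ⟨r + f j * (∑ i ∈ s, f i) * t, ?_⟩
    rw [Finset.sum_insert hj, Finset.sum_insert hj, ht, hr]
    ring

end Fermat.Agent.MazK2
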