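import Fermat.Agent.HeckeRed.Package
import Fermat.Agent.GalJ.Level
import Fermat.Agent.Frob.QbarInst
import Fermat.Agent.Frob.Exists
import Fermat.Agent.SEL.Val

/-!
# Divisors stable under inertia and Frobenius; valuations of fixed constants
-/

set_option autoImplicit false
set_option linter.unusedSectionVars false
set_option linter.style.haveILetI false
set_option maxHeartbeats 1000000

noncomputable section

open AlgebraicCurve ModularCurve IntermediateField HahnSeries

namespace Fermat.Agent.MazK2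

open Fermat.Agent.FunField Fermat.Agent.FunField.PlaceLemmas Fermat.Agent.Igusa
  Fermat.Agent.Deuring Fermat.Agent.HeckeRed Fermat.Agent.GalJ

local notation "Qb" => AlgebraicClosure ℚ

/-- inertia and Frobenius elements at `A` -/
def gen (A : ValuationSubring Qb) (q : ℕ) : Set (Qb ≃ₐ[ℚ] Qb) :=
  {σ | σ ∈ A.inertiaSubgroupIn ℚ ∨ A.IsFrobeniusAt σ q}

section Res

variable {A : ValuationSubring Qb} {κ : Type*} [Field κ] {π : A →+* κ} [IsLocalHom π]

theorem pi_eq_zero_of_residue {a : A} (h : IsLocalRing.residue A a = 0) : π a = 0 := by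
  by_contra hne
  rw [IsLocalRing.residue_eq_zero_iff] at h
  have h1 : IsUnit a := isUnit_of_map_unit π a (isUnit_iff_ne_zero.2 hne)
  exact (IsLocalRing.mem_maximalIdeal a).1 h h1

theorem pi_eq_of_residue {a b : A} (h : IsLocalRing.residue A a = IsLocalRing.residue A b) :
    π a = π b := by
  have h1 : IsLocalRing.residue A (a - b) = 0 := by rw [map_sub, h, sub_self]
  have h2 := pi_eq_zero_of_residue (π := π) h1
  rwa [map_sub, sub_eq_zero] at h2

theorem exists_inertia {σ : Qb ≃ₐ[ℚ] Qb} (hσ : σ ∈ A.inertiaSubgroupIn ℚ) :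
    ∃ σA : A →+* A, (∀ a : A, σ a = σA a) ∧ ∀ a : A, RingHom.id κ (π a) = π (σA a) := by
  obtain ⟨σA, h1, h2⟩ := exists_of_inertia hσ
  exact ⟨σA, h1, fun a => pi_eq_of_residue (h2 a)⟩

theorem exists_frobenius {q : ℕ} [hq : Fact q.Prime] [CharP κ q]
    (hA : A.LiesOverPrime q) {σ : Qb ≃ₐ[ℚ] Qb} (hσ : A.IsFrobeniusAt σ q) :
    ∃ σA : A →+* A, (∀ a : A, σ a = σA a) ∧ ∀ a : A, frobenius κ q (π a) = π (σA a) := by
  haveI : CharP (IsLocalRing.ResidueField A) q := charP_residueField hq.out hA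
  obtain ⟨σA, h1, h2⟩ := exists_of_frobenius hσ
  refine ⟨σA, h1, fun a => ?_⟩
  rw [frobenius_def, ← map_pow]
  refine pi_eq_of_residue ?_
  rw [← h2 a, frobenius_def, map_pow]

/-- constants fixed by Frobenius have residues in `F_q` -/
theorem pi_pow_of_fixed {q : ℕ} [hq : Fact q.Prime] [CharP κ q]
    (hA : A.LiesOverPrime q) {a : A} (ha : ∀ σ ∈ gen A q, σ (a : Qb) = a) :
    π a ^ q = π a := by
  obtain ⟨σ, hσ⟩ := Frob.exists_isFrobeniusAt (A := A) hq.out hA
  obtain ⟨σA, h1, h2⟩ := exists_frobenius (π := π) hA hσ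
  have h3 : σA a = a := by
    apply Subtype.ext
    rw [← h1]
    exact ha σ (Or.inr hσ)
  have h4 := h2 a
  rw [h3, frobenius_def] at h4
  exact h4

/-- constants fixed by inertia and with vanishing residue are divisible by `q` -/
theorem div_of_fixed {q : ℕ} [hq : Fact q.Prime] [CharP κ q]
    (hA : A.LiesOverPrime q) {a : A} (ha : ∀ σ ∈ gen A q, σ (a : Qb) = a) (h0 : π a = 0) :
    (a : Qb) / q ∈ A := by
  have hq0 : (q : Qb) ≠ 0 := by exact_mod_cast hq.out.ne_zero
  by_cases ha0 : (a : Qb) = 0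
  · rw [ha0, zero_div]
    exact zero_mem _
  obtain ⟨n, hn⟩ := SEL.exists_valuation_zpow_of_inertia A hq.out hA (z := (a : Qb)) ha0
    (fun g hg => ha g (Or.inl hg))
  have hlt : ∀ b : A, π b = 0 → A.valuation (b : Qb) < 1 := by
    intro b hb
    rw [← ValuationSubring.valuation_lt_one_iff]
    rw [IsLocalRing.mem_maximalIdeal, mem_nonunits_iff]
    intro hu
    have h1 := hu.map π
    rw [hb] at h1
    exact not_isUnit_zero h1
  have h1 := hlt a h0
  have h2 : A.valuation (q : Qb) < 1 := by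
    have := hlt ((q : ℕ) : A) (by rw [map_natCast, CharP.cast_eq_zero])
    exact this
  have hq1 : A.valuation (q : Qb) ≠ 0 := (A.valuation.ne_zero_iff).2 hq0
  have hn1 : 1 ≤ n := by
    by_contra hlt'
    push Not at hlt'
    rw [hn] at h1
    have h3 : (1 : A.ValueGroup) ≤ A.valuation (q : Qb) ^ n := by
      have h4 : n = -((-n).toNat : ℤ) := by omega
      rw [h4, zpow_neg, zpow_natCast]
      rw [one_le_inv₀ (pow_pos (zero_lt_iff.2 hq1) _)]
      exact pow_le_one₀ zero_le h2.le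
    exact absurd h1 (not_lt.2 h3)
  rw [← A.valuation_le_one_iff, map_div₀, hn]
  obtain ⟨m, rfl⟩ : ∃ m : ℕ, n = (m : ℤ) + 1 := ⟨(n - 1).toNat, by omega⟩
  rw [zpow_add₀ hq1, zpow_one, mul_div_assoc, div_self hq1, mul_one, zpow_natCast]
  exact pow_le_one₀ zero_le h2.le

end Res

section Div

variable (A : ValuationSubring Qb) {κ : Type*} [Field κ] [IsAlgClosed κ] (π : A →+* κ)
  [IsLocalHom π] (hπ : Function.Surjective π) (q N : ℕ) [hq : Fact q.Prime] [NeZero N]
  [CharP κ q] [PerfectRing κ q] (hA : A.LiesOverPrime q) (hN : (N : κ) ≠ 0)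
  {r : Place Qb (laurentBaseChange Qb (modularFunctionFieldFull N)) →
      Place κ (modularFunctionFieldFullC κ N)} (hr : IsReduction (dat A π hπ N hN) r)
  {Z : Set (Place κ (modularFunctionFieldFullC κ N))}
  (hZ : ∀ P, frobAut (modularFunctionFieldFullC κ N) (full_stable N) q • P ∈ Z ↔ P ∈ Z)

include hr hA hZ in
/-- the set of places reducing into `Z` is stable -/
theorem mem_iff_of_gen {σ : Qb ≃ₐ[ℚ] Qb} (hσ : σ ∈ gen A q)
    (P : Place Qb (laurentBaseChange Qb (modularFunctionFieldFull N))) :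
    r (arithmeticGalois (modularFunctionFieldFull N) σ • P) ∈ Z ↔ r P ∈ Z := by
  rcases hσ with hσ | hσ
  · obtain ⟨σA, h1, h2⟩ := exists_inertia (π := π) hσ
    have h3 := reduction_smul hr (arithmeticGalois (modularFunctionFieldFull N) σ) 1
      (galois_compat (isGauss_dat A π hπ N hN)
        (arithmeticGalois (modularFunctionFieldFull N) σ) 1 (σ : Qb →+* Qb) σA (RingHom.id κ)
        h1 h2 (coe_arithmeticGalois_smul _ σ) (coe_one_smul _)) P
    rw [h3, one_smul]
  · obtain ⟨σA, h1, h2⟩ := exists_frobenius (π := π) hA hσ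
    have h3 := reduction_smul hr (arithmeticGalois (modularFunctionFieldFull N) σ)
      (frobAut (modularFunctionFieldFullC κ N) (full_stable N) q)
      (galois_compat (isGauss_dat A π hπ N hN)
        (arithmeticGalois (modularFunctionFieldFull N) σ)
        (frobAut (modularFunctionFieldFullC κ N) (full_stable N) q)
        (σ : Qb →+* Qb) σA (frobenius κ q)
        h1 h2 (coe_arithmeticGalois_smul _ σ)
        (coe_frobAut_smul (modularFunctionFieldFullC κ N) (full_stable N) q)) P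
    rw [h3, hZ]

/-- Galois orbits of places are finite -/
theorem finite_orbit (P : Place Qb (laurentBaseChange Qb (modularFunctionFieldFull N))) :
    {Q | ∃ σ : Qb ≃ₐ[ℚ] Qb,
      Q = arithmeticGalois (modularFunctionFieldFull N) σ • P}.Finite := by
  classical
  haveI : Algebra.IsAlgebraic ℚ Qb := AlgebraicClosure.isAlgebraic ℚ
  obtain ⟨E, hE, h⟩ := level_place (modularFunctionFieldFull N) P
  have hopen : IsOpen (E.fixingSubgroup : Set (Qb ≃ₐ[ℚ] Qb)) :=
    IntermediateField.fixingSubgroup_isOpen E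
  haveI : Finite ((Qb ≃ₐ[ℚ] Qb) ⧸ E.fixingSubgroup) := Subgroup.quotient_finite_of_isOpen _ hopen
  refine Set.Finite.subset (Set.finite_range (fun c : (Qb ≃ₐ[ℚ] Qb) ⧸ E.fixingSubgroup =>
    arithmeticGalois (modularFunctionFieldFull N) (Quotient.out c) • P)) ?_
  rintro _ ⟨σ, rfl⟩
  refine ⟨(σ : (Qb ≃ₐ[ℚ] Qb) ⧸ E.fixingSubgroup), ?_⟩
  have h1 : ((Quotient.out (σ : (Qb ≃ₐ[ℚ] Qb) ⧸ E.fixingSubgroup) : Qb ≃ₐ[ℚ] Qb) :
      (Qb ≃ₐ[ℚ] Qb) ⧸ E.fixingSubgroup) = σ := Quotient.out_eq' _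
  simp only
  set τ := (Quotient.out (σ : (Qb ≃ₐ[ℚ] Qb) ⧸ E.fixingSubgroup) : Qb ≃ₐ[ℚ] Qb)
  rw [eq_comm, QuotientGroup.eq, IntermediateField.mem_fixingSubgroup_iff] at h1
  have h2 := h _ h1
  rw [map_mul, map_inv, mul_smul] at h2
  exact inv_smul_eq_iff.1 h2

include hr hA hZ in
/-- A stable divisor bounding the poles. -/
theorem exists_stable_divisor {h : laurentBaseChange Qb (modularFunctionFieldFull N)}
    (h0 : h ≠ 0) (hh : ∀ P, r P ∉ Z → 0 ≤ P.ord h) :
    ∃ D : Divisor Qb (laurentBaseChange Qb (modularFunctionFieldFull N)),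
      (∀ σ ∈ gen A q, arithmeticGalois (modularFunctionFieldFull N) σ • D = D) ∧
      (∀ P, r P ∉ Z → D P = 0) ∧ h ∈ riemannRochSpace D := by
  classical
  set g := arithmeticGalois (modularFunctionFieldFull N) (L := Qb) with hg
  -- the poles
  set S : Finset (Place Qb (laurentBaseChange Qb (modularFunctionFieldFull N))) :=
    (divOf (K := Qb) h).support.filter fun P => P.ord h < 0 with hS
  have hmemS : ∀ P, P ∈ S ↔ P.ord h < 0 := by
    intro P
    rw [hS, Finset.mem_filter, Finsupp.mem_support_iff, divOf_apply]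
    constructor
    · exact fun h => h.2
    · exact fun h => ⟨h.ne, h⟩
  have hSZ : ∀ P ∈ S, r P ∈ Z := by
    intro P hP
    by_contra hcon
    exact absurd (hh P hcon) (not_le.2 ((hmemS P).1 hP))
  -- the stable set
  set O : Set (Place Qb (laurentBaseChange Qb (modularFunctionFieldFull N))) :=
    {Q | (∃ P ∈ S, ∃ σ : Qb ≃ₐ[ℚ] Qb, Q = g σ • P) ∧ r Q ∈ Z} with hO
  have hOfin : O.Finite := by
    refine Set.Finite.subset (S.finite_toSet.biUnion fun P _ => finite_orbit N P) ?_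
    rintro Q ⟨⟨P, hP, σ, hσ⟩, -⟩
    exact Set.mem_biUnion hP ⟨σ, hσ⟩
  have hstab : ∀ σ ∈ gen A q, ∀ Q, g σ • Q ∈ O ↔ Q ∈ O := by
    intro σ hσ Q
    have h1 : r (g σ • Q) ∈ Z ↔ r Q ∈ Z := mem_iff_of_gen A π hπ q N hA hN hr hZ hσ Q
    constructor
    · rintro ⟨⟨P, hP, τ, hτ⟩, h2⟩
      refine ⟨⟨P, hP, σ⁻¹ * τ, ?_⟩, h1.1 h2⟩
      rw [map_mul, map_inv, mul_smul, ← hτ, inv_smul_smul]
    · rintro ⟨⟨P, hP, τ, hτ⟩, h2⟩
      refine ⟨⟨P, hP, σ * τ, ?_⟩, h1.2 h2⟩
      rw [map_mul, mul_smul, ← hτ]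
  set m : ℕ := ∑ P ∈ S, (P.ord h).natAbs with hm
  have hmb : ∀ P : Place Qb (laurentBaseChange Qb (modularFunctionFieldFull N)),
      -(m : ℤ) ≤ P.ord h := by
    intro P
    by_cases hP : P ∈ S
    · have h1 : (P.ord h).natAbs ≤ m :=
        Finset.single_le_sum (f := fun P : Place Qb
          (laurentBaseChange Qb (modularFunctionFieldFull N)) => (P.ord h).natAbs)
          (fun _ _ => Nat.zero_le _) hP
      omega
    · rw [hmemS] at hP
      omega
  set D : Divisor Qb (laurentBaseChange Qb (modularFunctionFieldFull N)) :=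
    Finsupp.indicator hOfin.toFinset (fun _ _ => (m : ℤ)) with hD
  have hDapp : ∀ Q, D Q = if Q ∈ O then (m : ℤ) else 0 := by
    intro Q
    rw [hD, Finsupp.indicator_apply]
    by_cases hQ : Q ∈ O
    · rw [dif_pos (hOfin.mem_toFinset.2 hQ), if_pos hQ]
    · rw [dif_neg (fun h => hQ (hOfin.mem_toFinset.1 h)), if_neg hQ]
  refine ⟨D, fun σ hσ => ?_, fun P hP => ?_, ?_⟩
  · ext Q
    rw [SemilinearAut.divisor_smul_apply, hDapp, hDapp]
    have h1 := hstab σ hσ ((g σ)⁻¹ • Q)
    rw [smul_inv_smul] at h1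
    by_cases hQ : Q ∈ O
    · rw [if_pos hQ, if_pos (h1.1 hQ)]
    · rw [if_neg hQ, if_neg (fun h => hQ (h1.2 h))]
  · rw [hDapp, if_neg (fun h => hP h.2)]
  · rw [mem_rr_of_ne h0]
    intro P
    rw [hDapp]
    by_cases hP : P ∈ O
    · rw [if_pos hP]
      exact hmb P
    · rw [if_neg hP, neg_zero]
      by_contra hneg
      push Not at hneg
      apply hP
      have hPS : P ∈ S := (hmemS P).2 hneg
      refine ⟨⟨P, hPS, 1, ?_⟩, hSZ P hPS⟩
      rw [map_one, one_smul]

end Div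

end Fermat.Agent.MazK2
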