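import Fermat.Agent.MazK2.Basis
import Fermat.Agent.MazK2.Frob
import Fermat.Agent.MazK2.Galois
import Fermat.Agent.MazLQ.KDefs

/-!
# BLOCK LQ-K2: the Kronecker congruence for functions
-/

set_option autoImplicit false
set_option linter.unusedSectionVars false
set_option linter.style.haveILetI false
set_option maxHeartbeats 1000000

noncomputable section

open AlgebraicCurve ModularCurve IntermediateField HahnSeries Module

namespace Fermat.Agent.MazK2

open Fermat.Agent.FunField Fermat.Agent.FunField.PlaceLemmas Fermat.Agent.Igusa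
  Fermat.Agent.Deuring Fermat.Agent.HeckeRed Fermat.Agent.GalJ Fermat.Agent.BadRed
  Fermat.Agent.ModPoly

attribute [local instance 2000] lsModule lsSMul

local notation "Qb" => AlgebraicClosure ℚ

/-- `gen` as a set of ring automorphisms -/
def genR (A : ValuationSubring Qb) (q : ℕ) : Set (Qb ≃+* Qb) :=
  {τ | ∃ σ ∈ gen A q, (σ : Qb ≃+* Qb) = τ}

theorem mem_A₀_gen {A : ValuationSubring Qb} {q : ℕ} (a : A₀ A (genR A q)) :
    ∀ σ ∈ gen A q, σ ((iA A (genR A q) a : A) : Qb) = (iA A (genR A q) a : A) := by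
  intro σ hσ
  exact (a : fix₀ (genR A q)).2 _ ⟨σ, hσ, rfl⟩

/-- coordinates with respect to an orthonormal basis -/
theorem exists_coords_mem {L k F F₁ : Type*} [Field L] [Field k] [Field F] [Field F₁]
    [Algebra L F] [Algebra k F₁] (𝔇 : Data L k F F₁) (V : Submodule L F)
    [FiniteDimensional L V] (b : Fin (finrank L V) → 𝔇.O)
    (hbV : ∀ i, ((b i : 𝔇.O) : F) ∈ V) (hb : LinearIndependent k (fun i => 𝔇.res (b i)))
    {f : F} (hf : f ∈ V) (hfO : f ∈ 𝔇.O) :
    ∃ c : Fin (finrank L V) → L, (∀ i, c i ∈ 𝔇.A) ∧ f = ∑ i, c i • ((b i : 𝔇.O) : F) := by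
  have hli := 𝔇.linearIndependent_of_res b hb
  have hli' : LinearIndependent L (fun i => (⟨((b i : 𝔇.O) : F), hbV i⟩ : V)) := by
    apply LinearIndependent.of_comp V.subtype
    exact hli
  have htop := hli'.span_eq_top_of_card_eq_finrank' (by simp)
  have hfmem : (⟨f, hf⟩ : V) ∈
      Submodule.span L (Set.range fun i => (⟨((b i : 𝔇.O) : F), hbV i⟩ : V)) := by
    rw [htop]; trivial
  obtain ⟨c, hc⟩ := (Submodule.mem_span_range_iff_exists_fun L).mp hfmem
  have hc' : f = ∑ i, c i • ((b i : 𝔇.O) : F) := by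
    have := congrArg Subtype.val hc
    simpa using this.symm
  exact ⟨c, 𝔇.coeff_mem b hb c (by rw [← hc']; exact hfO), hc'⟩

section Abs

variable {L : Type*} [Field L] {Γ₀ : Set (L ≃+* L)} (A : ValuationSubring L)
  {κ : Type*} [Field κ] (π : A →+* κ)

/-- basis of functions, abstract form -/
theorem exists_basis_abs (N : ℕ) (F : IntermediateField L (LaurentSeries L))
    (hFN : F = modularFunctionFieldFullC L N) (hF : IsTameField F)
    {F₁ : IntermediateField κ (LaurentSeries κ)} (𝔇 : Data L κ F F₁) (h𝔇 : IsGauss π 𝔇)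
    [IsFF L F] (D : Divisor L F)
    (hD : ∀ σ ∈ Γ₀, ∃ g : SemilinearAut L F, g • D = D ∧
      ∀ x : F, ((g • x : F) : LaurentSeries L) = coeffMap (σ : L →+* L) (x : LaurentSeries L)) :
    ∃ (n : ℕ) (U : Fin n → F) (y : Fin n → LaurentSeries (fix₀ Γ₀)),
      (∀ i, U i ∈ riemannRochSpace D) ∧
      (∀ i, y i ∈ gaussRing (A₀ A Γ₀) (π.comp (iA A Γ₀))) ∧
      (∀ i, (U i : LaurentSeries L) = coeffMap (fix₀ Γ₀).subtype (y i)) ∧
      ∀ f ∈ riemannRochSpace D, (f : LaurentSeries L) ∈ gaussRing A π →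
        ∃ c : Fin n → L, (∀ i, c i ∈ 𝔇.A) ∧ f = ∑ i, c i • U i := by
  classical
  obtain ⟨u, y, huV, hli, hy, huy⟩ := exists_fixed_orthonormal (Γ₀ := Γ₀) A π N F hFN
    hF (riemannRochSpace D) (by
      intro σ hσ x hx z hz
      obtain ⟨g, hgD, hg⟩ := hD σ hσ
      have h1 : z = g • x := Subtype.ext (hz.trans (hg x).symm)
      rw [h1]
      rcases eq_or_ne x 0 with rfl | hx0
      · rw [smul_zero]; exact Submodule.zero_mem _
      have hgx : g • x ≠ 0 := fun h => hx0 ((smul_eq_zero_iff_eq _).mp h)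
      rw [mem_rr_of_ne hx0] at hx
      rw [mem_rr_of_ne hgx]
      intro v
      have h2 := hx (g⁻¹ • v)
      rw [← ord_semi] at h2
      have h3 := DFunLike.congr_fun hgD v
      rw [SemilinearAut.divisor_smul_apply] at h3
      rwa [h3] at h2) (by
      intro σ hσ x hx
      obtain ⟨g, hgD, hg⟩ := hD σ hσ
      rw [← hg ⟨x, hx⟩]
      exact (g • (⟨x, hx⟩ : F)).2)
  -- the reduction data
  have hbO : ∀ i, ((u i : gaussVal A π hF) : F) ∈ 𝔇.O := fun i => by
    rw [h𝔇.mem]
    exact (mem_gaussVal_iff A π hF).1 (u i).2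
  have hbres : ∀ i, ((𝔇.res ⟨_, hbO i⟩ : F₁) : LaurentSeries κ) = gaussValRes A π hF (u i) :=
    fun i => h𝔇.res ⟨_, hbO i⟩
  have hbli : LinearIndependent κ (fun i => 𝔇.res ⟨_, hbO i⟩) := by
    rw [Fintype.linearIndependent_iff] at hli ⊢
    intro g hg
    apply hli
    have h1 := congrArg (fun z : F₁ => (z : LaurentSeries κ)) hg
    have h2 : ((∑ i, g i • 𝔇.res ⟨_, hbO i⟩ : F₁) :
        LaurentSeries κ) = ∑ i, g i • gaussValRes A π hF (u i) := by
      have h3 := map_sum F₁.val.toLinearMap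
        (fun i => g i • 𝔇.res ⟨_, hbO i⟩) Finset.univ
      refine h3.trans (Finset.sum_congr rfl fun i _ => ?_)
      rw [← hbres i]
      rfl
    rw [← h2]
    exact h1
  refine ⟨_, fun i => ((u i : gaussVal A π hF) : F), y, huV, hy, huy, fun f hf hfg => ?_⟩
  exact exists_coords_mem 𝔇 (riemannRochSpace D) (fun i => ⟨_, hbO i⟩) huV hbli hf
    ((h𝔇.mem _).2 hfg)

end Abs

section Basis

variable (A : ValuationSubring Qb) {κ : Type*} [Field κ] (π : A →+* κ)
  [IsLocalHom π] (hπ : Function.Surjective π) (q N : ℕ) [hq : Fact q.Prime] [NeZero N]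
  [CharP κ q] (hA : A.LiesOverPrime q) (hN : (N : κ) ≠ 0)

include hA in
/-- **Kronecker's congruence for the basis functions.** -/
theorem exists_frob_fixed {y : LaurentSeries (fix₀ (genR A q))}
    (hy : y ∈ gaussRing (A₀ A (genR A q)) (π.comp (iA A (genR A q)))) :
    ∃ w ∈ gaussRing A π, qExpand Qb q (coeffMap (fix₀ (genR A q)).subtype y) =
      (coeffMap (fix₀ (genR A q)).subtype y) ^ q + (q : LaurentSeries Qb) * w := by
  have hq0 : (q : Qb) ≠ 0 := by exact_mod_cast hq.out.ne_zero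
  have h1 : ∀ a : A₀ A (genR A q), (π.comp (iA A (genR A q))) a ^ q =
      (π.comp (iA A (genR A q))) a := fun a => pi_pow_of_fixed hA (mem_A₀_gen a)
  have h2 : ∀ a : A₀ A (genR A q), (π.comp (iA A (genR A q))) a = 0 →
      ∃ b : A₀ A (genR A q), a = (q : A₀ A (genR A q)) * b := by
    intro a ha
    have h3 := div_of_fixed (π := π) hA (mem_A₀_gen a) ha
    have h4 : (((a : fix₀ (genR A q)) / (q : fix₀ (genR A q)) : fix₀ (genR A q)) : Qb) ∈ A := by
      have : (((a : fix₀ (genR A q)) / (q : fix₀ (genR A q)) : fix₀ (genR A q)) : Qb) =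
          ((iA A (genR A q) a : A) : Qb) / q := by
        push_cast
        rfl
      rw [this]
      exact h3
    refine ⟨⟨(a : fix₀ (genR A q)) / (q : fix₀ (genR A q)), h4⟩, ?_⟩
    apply Subtype.ext
    apply Subtype.ext
    push_cast
    rw [mul_div_cancel₀]
    exact hq0
  obtain ⟨w0, hw0, hw⟩ := exists_frob (K := fix₀ (genR A q)) h1 h2 hy
  obtain ⟨h3, -⟩ := gauss_base hw0
  refine ⟨_, h3, ?_⟩
  have h5 := congrArg (coeffMap (fix₀ (genR A q)).subtype) hw
  rw [map_add, map_mul, map_pow, map_natCast, ModularCurve.coeffMap_qExpand] at h5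
  exact h5

include hπ hN in
/-- basis of functions -/
theorem exists_basis {D : Divisor Qb (laurentBaseChange Qb (modularFunctionFieldFull N))}
    (hD : ∀ σ ∈ gen A q, arithmeticGalois (modularFunctionFieldFull N) σ • D = D) :
    ∃ (n : ℕ) (U : Fin n → laurentBaseChange Qb (modularFunctionFieldFull N))
      (y : Fin n → LaurentSeries (fix₀ (genR A q))),
      (∀ i, U i ∈ riemannRochSpace D) ∧
      (∀ i, y i ∈ gaussRing (A₀ A (genR A q)) (π.comp (iA A (genR A q)))) ∧
      (∀ i, (U i : LaurentSeries Qb) = coeffMap (fix₀ (genR A q)).subtype (y i)) ∧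
      ∀ f ∈ riemannRochSpace D, (f : LaurentSeries Qb) ∈ gaussRing A π →
        ∃ c : Fin n → Qb, (∀ i, c i ∈ A) ∧ f = ∑ i, c i • U i := by
  obtain ⟨n, U, y, h1, h2, h3, h4⟩ := exists_basis_abs (Γ₀ := genR A q) A π N
    (laurentBaseChange Qb (modularFunctionFieldFull N)) (HeckeRed.laurentBaseChange_full Qb N)
    (isTameField_bar N) (dat A π hπ N hN) (isGauss_dat A π hπ N hN) D (by
      rintro _ ⟨σ, hσ, rfl⟩
      exact ⟨arithmeticGalois (modularFunctionFieldFull N) σ, hD σ hσ,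
        coe_arithmeticGalois_smul _ σ⟩)
  refine ⟨n, U, y, h1, h2, h3, fun f hf hfg => ?_⟩
  obtain ⟨c, hcA, hc⟩ := h4 f hf hfg
  refine ⟨c, fun i => ?_, hc⟩
  have h5 := hcA i
  rwa [dat_A] at h5

end Basis

/-- **LQ-K2**. -/
theorem k2 : MazLQ.K2Statement := by
  intro A κ _ _ π _ hπ q N hq _ _ _ hA hN r hr Z hZ h hh hpole
  classical
  rcases eq_or_ne h 0 with rfl | h0
  · refine ⟨0, zero_mem _, fun P _ => hpole P ‹_›, 0, zero_mem _, ?_⟩
    rw [ZeroMemClass.coe_zero, map_zero, zero_pow hq.out.ne_zero, mul_zero, add_zero]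
  obtain ⟨D, hDσ, hDZ, hD⟩ := exists_stable_divisor A π hπ q N hA hN hr hZ h0 hpole
  obtain ⟨n, U, y, hUV, hy, hUy, hrep⟩ := exists_basis A π hπ q N hN hDσ
  obtain ⟨c, hcA, hc⟩ := hrep h hD hh
  choose b hb using fun i => IsAlgClosed.exists_pow_nat_eq (c i) hq.out.pos
  have hbA : ∀ i, b i ∈ A := by
    intro i
    have h1 := hcA i
    rw [← hb i, ← A.valuation_le_one_iff, map_pow] at h1
    rw [← A.valuation_le_one_iff]
    exact (pow_le_one_iff hq.out.ne_zero).1 h1
  have hw : ∀ i, ∃ w ∈ gaussRing A π, qExpand Qb q (U i : LaurentSeries Qb) =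
      (U i : LaurentSeries Qb) ^ q + (q : LaurentSeries Qb) * w := by
    intro i
    rw [hUy i]
    exact exists_frob_fixed A π q hA (hy i)
  choose w hwG hw using hw
  set C : Qb →+* LaurentSeries Qb := algebraMap Qb (LaurentSeries Qb) with hC
  have hCG : ∀ a ∈ A, C a ∈ gaussRing A π := fun a ha => algebraMap_mem_gaussRing A π ⟨a, ha⟩
  have hUG : ∀ i, (U i : LaurentSeries Qb) ∈ gaussRing A π := by
    intro i
    rw [hUy i]
    exact (gauss_base (hy i)).1
  have hCq : ∀ a, qExpand Qb q (C a) = C a := by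
    intro a
    rw [hC, algebraMap_eq_single, qExpand_single, mul_zero]
  set k : laurentBaseChange Qb (modularFunctionFieldFull N) := ∑ i, b i • U i with hk
  have hcoe : ∀ (e : Fin n → Qb), ((∑ i, e i • U i :
      laurentBaseChange Qb (modularFunctionFieldFull N)) : LaurentSeries Qb) =
      ∑ i, C (e i) * (U i : LaurentSeries Qb) := by
    intro e
    have h3 := map_sum (laurentBaseChange Qb (modularFunctionFieldFull N)).val
      (fun i => e i • U i) Finset.univ
    refine h3.trans (Finset.sum_congr rfl fun i _ => ?_)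
    rw [Algebra.smul_def, map_mul]
    rfl
  have hkL : (k : LaurentSeries Qb) = ∑ i, C (b i) * (U i : LaurentSeries Qb) := hcoe b
  have hhL : (h : LaurentSeries Qb) = ∑ i, C (c i) * (U i : LaurentSeries Qb) := by
    rw [hc]
    exact hcoe c
  have hkV : k ∈ riemannRochSpace D := Submodule.sum_mem _ fun i _ =>
    Submodule.smul_mem _ _ (hUV i)
  have hfG : ∀ i, C (b i) * (U i : LaurentSeries Qb) ∈ gaussRing A π := fun i =>
    mul_mem (hCG _ (hbA i)) (hUG i)
  obtain ⟨ρ, hρ⟩ := exists_sum_pow hq.out Finset.univ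
    (fun i => (⟨C (b i) * (U i : LaurentSeries Qb), hfG i⟩ : gaussRing A π))
  have hρ' : (k : LaurentSeries Qb) ^ q = ∑ i, (C (b i) * (U i : LaurentSeries Qb)) ^ q +
      (q : LaurentSeries Qb) * (ρ : LaurentSeries Qb) := by
    have h1 := congrArg (fun z : gaussRing A π => (z : LaurentSeries Qb)) hρ
    simp only [Subring.coe_pow, Subring.coe_add, Subring.coe_mul, Subring.coe_natCast,
      AddSubmonoidClass.coe_finsetSum] at h1
    rw [hkL]
    exact h1
  refine ⟨k, ?_, fun P hP => ?_, ∑ i, C (c i) * w i - ρ, ?_, ?_⟩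
  · rw [hkL]
    exact sum_mem fun i _ => hfG i
  · rcases eq_or_ne k 0 with hk0 | hk0
    · rw [hk0, P.ord_zero]
    · have h1 := (mem_rr_of_ne hk0).1 hkV P
      rw [hDZ P hP, neg_zero] at h1
      exact h1
  · exact sub_mem (sum_mem fun i _ => mul_mem (hCG _ (hcA i)) (hwG i)) ρ.2
  · rw [hhL, map_sum, hρ', map_natCast]
    have h1 : ∀ i, qExpand Qb q (C (c i) * (U i : LaurentSeries Qb)) =
        (C (b i) * (U i : LaurentSeries Qb)) ^ q +
          (q : LaurentSeries Qb) * (C (c i) * w i) := by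
      intro i
      rw [map_mul, hCq, hw i, mul_pow, ← map_pow, hb i]
      ring
    rw [Finset.sum_congr rfl fun i _ => h1 i, Finset.sum_add_distrib, ← Finset.mul_sum]
    ring

end Fermat.Agent.MazK2
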