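import Fermat.Agent.FlatJ.QBasis
import Fermat.Agent.BadRed.KLat7

/-!
# Orthonormal bases over a fixed field
-/

set_option autoImplicit false
set_option linter.unusedSectionVars false
set_option maxHeartbeats 1000000

noncomputable section

open HahnSeries ModularCurve Module AlgebraicCurve

namespace Fermat.Agent.MazK2

open Fermat.Agent.Igusa Fermat.Agent.FlatJ Fermat.Agent.BadRed

attribute [local instance 2000] lsModule lsSMul

variable {L : Type*} [Field L] {Γ₀ : Set (L ≃+* L)}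

theorem coeffMap_fix {x : LaurentSeries L}
    (h : ∀ σ ∈ Γ₀, coeffMap (σ : L →+* L) x = x) (n : ℤ) : x.coeff n ∈ fix₀ Γ₀ := by
  intro σ hσ
  exact congrArg (fun z : LaurentSeries L => z.coeff n) (h σ hσ)

/-- A stable space of Laurent series has a pivot basis with fixed coefficients. -/
theorem exists_fixed_pivots (V : Submodule L (LaurentSeries L)) [FiniteDimensional L V]
    (hV : ∀ σ ∈ Γ₀, ∀ x ∈ V, coeffMap (σ : L →+* L) x ∈ V) :
    ∃ (y : Fin (finrank L V) → LaurentSeries (fix₀ Γ₀))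
      (m : Fin (finrank L V) → ℤ),
      (∀ j, coeffMap (fix₀ Γ₀).subtype (y j) ∈ V) ∧
      ∀ i j, (y j).coeff (m i) = if i = j then 1 else 0 := by
  obtain ⟨y, m, hyV, hpiv⟩ := exists_pivots _ V inferInstance rfl
  have hfix : ∀ σ ∈ Γ₀, ∀ j, coeffMap (σ : L →+* L) (y j) = y j := by
    intro σ hσ j
    have h1 := eq_sum_of_pivots hyV hpiv (hV σ hσ _ (hyV j))
    rw [h1]
    have h2 : ∀ i, (coeffMap (σ : L →+* L) (y j)).coeff (m i) =
        if i = j then 1 else 0 := by
      intro i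
      rw [coeffMap_coeff, hpiv]
      split_ifs
      · exact map_one σ
      · exact map_zero σ
    simp only [h2, ite_smul, zero_smul, Finset.sum_ite_eq', Finset.mem_univ, if_true]
    rw [Algebra.smul_def, map_one, one_mul]
  choose y' hy' using fun j => exists_descend_coeff (Γ₀ := Γ₀) (x := y j)
    (coeffMap_fix fun σ hσ => hfix σ hσ j)
  refine ⟨y', m, fun j => by rw [hy']; exact hyV j, fun i j => ?_⟩
  have h1 := hpiv i j
  rw [← hy', coeffMap_coeff] at h1
  apply Subtype.ext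
  refine h1.trans ?_
  split_ifs
  · rfl
  · rfl

theorem coeffMap_smul_algebraMap (c : fix₀ Γ₀) (x : LaurentSeries (fix₀ Γ₀)) :
    coeffMap (fix₀ Γ₀).subtype (algebraMap (fix₀ Γ₀) (LaurentSeries (fix₀ Γ₀)) c * x) =
      algebraMap L (LaurentSeries L) (c : L) * coeffMap (fix₀ Γ₀).subtype x := by
  ext n
  rw [coeffMap_coeff, Igusa.coeff_algebraMap_mul, Igusa.coeff_algebraMap_mul, coeffMap_coeff]
  rfl

variable (A : ValuationSubring L) {κ : Type*} [Field κ] (π : A →+* κ)

set_option synthInstance.maxHeartbeats 400000 in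
/-- **Orthonormal bases over the fixed field.** -/
theorem exists_fixed_orthonormal (N : ℕ)
    (F : IntermediateField L (LaurentSeries L)) (hFN : F = modularFunctionFieldFullC L N)
    (hF : IsTameField F) (V : Submodule L F) [FiniteDimensional L V]
    (hV : ∀ σ ∈ Γ₀, ∀ x ∈ V, ∀ z : F,
      (z : LaurentSeries L) = coeffMap (σ : L →+* L) x → z ∈ V)
    (hFσ : ∀ σ ∈ Γ₀, ∀ x ∈ F, coeffMap (σ : L →+* L) x ∈ F) :
    ∃ (u : Fin (finrank L V) → gaussVal A π hF)
      (y : Fin (finrank L V) → LaurentSeries (fix₀ Γ₀)),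
      (∀ i, ((u i : gaussVal A π hF) : F) ∈ V) ∧
      LinearIndependent κ (fun i => gaussValRes A π hF (u i)) ∧
      (∀ i, y i ∈ gaussRing (A₀ A Γ₀) (π.comp (iA A Γ₀))) ∧
      ∀ i, (((u i : gaussVal A π hF) : F) : LaurentSeries L) =
        coeffMap (fix₀ Γ₀).subtype (y i) := by
  classical
  -- the image in Laurent series
  let W : Submodule L (LaurentSeries L) :=
    V.map F.val.toLinearMap
  have hWfin : FiniteDimensional L W := inferInstance
  have hWV : finrank L W = finrank L V :=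
    (LinearEquiv.finrank_eq (Submodule.equivMapOfInjective F.val.toLinearMap
      (fun x y h => Subtype.ext h) V)).symm
  obtain ⟨y, m, hyW, hpiv⟩ := exists_fixed_pivots (Γ₀ := Γ₀) W (by
    rintro σ hσ _ ⟨x, hx, rfl⟩
    exact ⟨⟨_, hFσ σ hσ x x.2⟩, hV σ hσ x hx ⟨_, hFσ σ hσ x x.2⟩ rfl, rfl⟩)
  -- the rational space
  let G := modularFunctionFieldFullC (fix₀ Γ₀) N
  have hG : IsTameField G := isTameField_full (L := fix₀ Γ₀) N
  let V' : Submodule (fix₀ Γ₀) G :=
    { carrier := {x | ∃ z ∈ V, ((z : F) : LaurentSeries L) =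
        coeffMap (fix₀ Γ₀).subtype (x : LaurentSeries (fix₀ Γ₀))}
      zero_mem' := ⟨0, V.zero_mem, by
        rw [ZeroMemClass.coe_zero, ZeroMemClass.coe_zero, map_zero]⟩
      add_mem' := by
        rintro a b ⟨z, hz, hza⟩ ⟨w, hw, hwb⟩
        exact ⟨z + w, V.add_mem hz hw, by
          rw [AddMemClass.coe_add, AddMemClass.coe_add, map_add, hza, hwb]⟩
      smul_mem' := by
        rintro c a ⟨z, hz, hza⟩
        refine ⟨(c : L) • z, V.smul_mem _ hz, ?_⟩
        rw [IntermediateField.coe_smul, IntermediateField.coe_smul, Algebra.smul_def,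
          Algebra.smul_def, coeffMap_smul_algebraMap, hza] }
  have hV' : ∀ x : G, x ∈ V' ↔ ∃ z ∈ V, ((z : F) : LaurentSeries L) =
      coeffMap (fix₀ Γ₀).subtype (x : LaurentSeries (fix₀ Γ₀)) := fun x => Iff.rfl
  have hinj : Function.Injective (coeffMap (fix₀ Γ₀).subtype) :=
    (coeffMap (fix₀ Γ₀).subtype).injective
  -- the rational basis
  have hyV : ∀ j, ∃ z ∈ V, ((z : F) : LaurentSeries L) =
      coeffMap (fix₀ Γ₀).subtype (y j) := fun j => by
    obtain ⟨z, hz, hz'⟩ := hyW j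
    exact ⟨z, hz, hz'⟩
  have hyG : ∀ j, y j ∈ G := fun j => by
    obtain ⟨z, hz, hz'⟩ := hyV j
    refine MzCusp.mem_full_of_coeffMap (fix₀ Γ₀).subtype N ?_
    rw [← hz', ← hFN]
    exact z.2
  have hpiv' : ∀ i j, (coeffMap (fix₀ Γ₀).subtype (y j)).coeff (m i) =
      if i = j then 1 else 0 := by
    intro i j
    rw [coeffMap_coeff, hpiv]
    split_ifs
    · exact map_one _
    · exact map_zero _
  let e : Fin (finrank L W) → V' := fun j => ⟨⟨y j, hyG j⟩, (hV' _).2 (hyV j)⟩
  have heli : LinearIndependent (fix₀ Γ₀) e := by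
    rw [Fintype.linearIndependent_iff]
    intro g hg i
    have h1 : ∑ j, g j • (y j : LaurentSeries (fix₀ Γ₀)) = 0 := by
      have h2 := congrArg (fun z : V' => ((z : G) : LaurentSeries (fix₀ Γ₀))) hg
      simpa [e] using h2
    have h3 := congrArg (coeffLin (fix₀ Γ₀) (m i)) h1
    rw [map_sum, map_zero] at h3
    rw [← h3]
    have : ∀ j, coeffLin (fix₀ Γ₀) (m i) (g j • y j) = if i = j then g j else 0 := by
      intro j
      rw [map_smul, coeffLin_apply, hpiv i j]
      split_ifs <;> simp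
    simp [this]
  have hespan : ⊤ ≤ Submodule.span (fix₀ Γ₀) (Set.range e) := by
    intro x _
    obtain ⟨z, hz, hzx⟩ := (hV' _).1 x.2
    have hxW : coeffMap (fix₀ Γ₀).subtype ((x : G) : LaurentSeries (fix₀ Γ₀)) ∈ W :=
      ⟨z, hz, hzx⟩
    have h1 := eq_sum_of_pivots hyW hpiv' hxW
    have h2 : ((x : G) : LaurentSeries (fix₀ Γ₀)) =
        ∑ j, ((x : G) : LaurentSeries (fix₀ Γ₀)).coeff (m j) • y j := by
      apply hinj
      rw [h1, map_sum]
      refine Finset.sum_congr rfl fun j _ => ?_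
      rw [coeffMap_coeff, Algebra.smul_def, Algebra.smul_def, coeffMap_smul_algebraMap]
      rfl
    have h3 : x = ∑ j, ((x : G) : LaurentSeries (fix₀ Γ₀)).coeff (m j) • e j := by
      apply Subtype.ext
      apply Subtype.ext
      refine h2.trans ?_
      simp [e]
    rw [h3]
    exact Submodule.sum_mem _ fun j _ => Submodule.smul_mem _ _ (Submodule.subset_span ⟨j, rfl⟩)
  let B : Basis (Fin (finrank L W)) (fix₀ Γ₀) V' := Basis.mk heli hespan
  have hfd : FiniteDimensional (fix₀ Γ₀) V' := Module.Finite.of_basis B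
  have hfr : finrank (fix₀ Γ₀) V' = finrank L V := by
    rw [Module.finrank_eq_card_basis B, Fintype.card_fin, hWV]
  obtain ⟨b, hb, hbli⟩ := exists_orthonormal (A₀ A Γ₀) (π.comp (iA A Γ₀)) hG V'
  choose z hz hzb using fun i => (hV' _).1 (hb i)
  have hzO : ∀ i, z i ∈ gaussVal A π hF := fun i => by
    rw [mem_gaussVal_iff, hzb]
    exact (gauss_base (b i).2).1
  have hres : ∀ i, gaussValRes A π hF ⟨z i, hzO i⟩ =
      gaussValRes (A₀ A Γ₀) (π.comp (iA A Γ₀)) hG (b i) := by
    intro i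
    obtain ⟨h1, h2⟩ := gauss_base (b i).2
    have h3 : gaussValRes A π hF ⟨z i, hzO i⟩ = gaussRes A π ⟨_, h1⟩ :=
      gaussRes_congr (hzb i)
    rw [h3, h2]
    rfl
  refine ⟨fun i => ⟨z (Fin.cast hfr.symm i), hzO _⟩,
    fun i => ((b (Fin.cast hfr.symm i) : gaussVal _ _ hG) : G), fun i => hz _, ?_,
    fun i => (b _).2, fun i => hzb _⟩
  simp only [hres]
  exact hbli.comp (Fin.cast hfr.symm) (Fin.cast_injective _)

end Fermat.Agent.MazK2
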